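import Fermat.Agent.Kummer.Defs
import Fermat.Agent.Kummer.CaseI.Core

/-!
# First case of FLT for a prime `p ≥ 5` whose cyclotomic ring of integers is principal.
INTERFACE (statement frozen).  Proof: `Fermat/Agent/Kummer/CaseI/*.lean`.
-/

set_option autoImplicit false

namespace Fermat.Agent.Kummer

open NumberField

/-- Case I: no primitive solution of `x^p + y^p + z^p = 0` with `p ∤ xyz`, if `ℤ[ζ_p]` is a PID. -/
theorem caseI {p : ℕ} [Fact p.Prime] (hp5 : 5 ≤ p) (K : Type) [Field K] [NumberField K]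
    [IsCyclotomicExtension {p} ℚ K] (hpid : IsPrincipalIdealRing (𝓞 K))
    {x y z : ℤ} (hxy : IsCoprime x y) (h : x ^ p + y ^ p + z ^ p = 0)
    (hp : ¬ (p : ℤ) ∣ x * y * z) : False :=
  CaseI.caseI_aux K hp5 hpid hxy h hp

end Fermat.Agent.Kummer
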