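import Fermat.Agent.Kummer.Defs
import Fermat.Agent.Kummer.CaseII.Cyclo
import Fermat.Agent.Kummer.CaseII.Start
import Fermat.Agent.Kummer.CaseII.Descent

/-!
# Second case of FLT for an odd prime `p` whose cyclotomic ring of integers is principal and
satisfies Kummer's lemma.  INTERFACE (statement frozen).
-/

set_option autoImplicit false

namespace Fermat.Agent.Kummer

open NumberField

/-- Case II: no solution of `x^p + y^p + z^p = 0` with `x, y` coprime, `z ≠ 0` and `p ∣ z`. -/
theorem caseII {p : ℕ} [Fact p.Prime] (hp3 : 3 ≤ p) (K : Type) [Field K] [NumberField K]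
    [IsCyclotomicExtension {p} ℚ K] (hpid : IsPrincipalIdealRing (𝓞 K)) (hk : KummerProp p K)
    {x y z : ℤ} (hxy : IsCoprime x y) (h : x ^ p + y ^ p + z ^ p = 0)
    (hz : z ≠ 0) (hpz : (p : ℤ) ∣ z) : False := by
  have S := CaseII.setup_ringOfIntegers hp3 K hk
  obtain ⟨m, hm, hsol⟩ := CaseII.sol_of_fermat S hxy h hz hpz
  exact CaseII.not_sol S m hm hsol

end Fermat.Agent.Kummer
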