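import Mathlib

/-!
# FLT for the exponents 5, 7, 11, 13 (Kummer's proof in the principal case): common definitions.
Owner: lead.  Complete, nothing to prove here.
-/

set_option autoImplicit false

namespace Fermat.Agent.Kummer

open NumberField

/-- Kummer's lemma for the prime `p` in the number field `K` (to be used with `K` the `p`-th
cyclotomic field): a unit of `𝓞 K` congruent to a rational integer modulo `p` is a `p`-th power
of a unit. -/
def KummerProp (p : ℕ) (K : Type) [Field K] [NumberField K] : Prop :=
  ∀ u : (𝓞 K)ˣ, (∃ a : ℤ, (p : 𝓞 K) ∣ (u : 𝓞 K) - (a : 𝓞 K)) → ∃ v : (𝓞 K)ˣ, u = v ^ p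

end Fermat.Agent.Kummer
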