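import Fermat.Agent.Kummer.Defs
import Fermat.Agent.Kummer.KL.Criterion
import Fermat.Agent.Kummer.KL.Cert5
import Fermat.Agent.Kummer.KL.Cert7
import Fermat.Agent.Kummer.KL.Cert11
import Fermat.Agent.Kummer.KL.Cert13

/-!
# Kummer's lemma for `p = 5, 7, 11, 13`.  INTERFACE (statements frozen).

Proof by a finite certificate (`KL/Criterion.lean`): the logarithmic derivative on
`(𝓞 K / p)ˣ = ((ZMod p)[X] / (X^(p-1)))ˣ` (realised through the dual numbers over
`(ZMod p)[X] / (X^(p-2))`) takes linearly independent values on the `(p - 1) / 2` cyclotomic units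
`ζ, 1 + ζ, …, 1 + ζ + ⋯ + ζ^((p-3)/2)`, and the unit group is generated by `(p - 1) / 2` elements.
-/

set_option autoImplicit false

namespace Fermat.Agent.Kummer

open NumberField

theorem kummerProp_five (K : Type) [Field K] [NumberField K] [IsCyclotomicExtension {5} ℚ K] :
    KummerProp 5 K := by
  have : Fact (Nat.Prime 5) := ⟨by norm_num⟩
  exact KL.kummerProp_of_cert K (n := 2) (m := 3) rfl rfl KL.cert_five

theorem kummerProp_seven (K : Type) [Field K] [NumberField K] [IsCyclotomicExtension {7} ℚ K] :
    KummerProp 7 K := by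
  have : Fact (Nat.Prime 7) := ⟨by norm_num⟩
  exact KL.kummerProp_of_cert K (n := 3) (m := 5) rfl rfl KL.cert_seven

theorem kummerProp_eleven (K : Type) [Field K] [NumberField K] [IsCyclotomicExtension {11} ℚ K] :
    KummerProp 11 K := by
  have : Fact (Nat.Prime 11) := ⟨by norm_num⟩
  exact KL.kummerProp_of_cert K (n := 5) (m := 9) rfl rfl KL.cert_eleven

theorem kummerProp_thirteen (K : Type) [Field K] [NumberField K]
    [IsCyclotomicExtension {13} ℚ K] : KummerProp 13 K := by
  have : Fact (Nat.Prime 13) := ⟨by norm_num⟩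
  exact KL.kummerProp_of_cert K (n := 6) (m := 11) rfl rfl KL.cert_thirteen

end Fermat.Agent.Kummer
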