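import Fermat.Agent.Kummer.Defs
import Fermat.Agent.Kummer.PID.Reduce
import Fermat.Agent.Kummer.PID.Bound7
import Fermat.Agent.Kummer.PID.Bound11
import Fermat.Agent.Kummer.PID.Bound13
import Fermat.Agent.Kummer.PID.Check
import Fermat.Agent.Kummer.PID.Princ

/-!
# The rings of integers of the 7-th, 11-th and 13-th cyclotomic fields are principal.
INTERFACE (statements frozen).  (`p = 5` is `IsCyclotomicExtension.Rat.five_pid` in Mathlib.)
-/

set_option autoImplicit false

namespace Fermat.Agent.Kummer

open NumberField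

theorem pid_seven (K : Type) [Field K] [NumberField K] [IsCyclotomicExtension {7} ℚ K] :
    IsPrincipalIdealRing (𝓞 K) := by
  haveI : Fact (Nat.Prime 7) := ⟨by norm_num⟩
  refine PID.isPrincipalIdealRing_of_bound 7 4 K (PID.floor_bound_seven K) ?_
  intro ℓ hℓ hle hne hk
  exact (PID.check_seven ℓ hℓ hle hne hk).elim

theorem pid_eleven (K : Type) [Field K] [NumberField K] [IsCyclotomicExtension {11} ℚ K] :
    IsPrincipalIdealRing (𝓞 K) := by
  haveI : Fact (Nat.Prime 11) := ⟨by norm_num⟩
  refine PID.isPrincipalIdealRing_of_bound 11 58 K (PID.floor_bound_eleven K) ?_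
  intro ℓ hℓ hle hne hk
  obtain rfl := PID.check_eleven ℓ hℓ hle hne hk
  exact PID.principal_eleven_23 K

theorem pid_thirteen (K : Type) [Field K] [NumberField K] [IsCyclotomicExtension {13} ℚ K] :
    IsPrincipalIdealRing (𝓞 K) := by
  haveI : Fact (Nat.Prime 13) := ⟨by norm_num⟩
  refine PID.isPrincipalIdealRing_of_bound 13 306 K (PID.floor_bound_thirteen K) ?_
  intro ℓ hℓ hle hne hk
  rcases PID.check_thirteen ℓ hℓ hle hne hk with rfl | rfl | rfl | rfl | rfl
  · exact PID.principal_thirteen_3 K
  · exact PID.principal_thirteen_53 K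
  · exact PID.principal_thirteen_79 K
  · exact PID.principal_thirteen_131 K
  · exact PID.principal_thirteen_157 K

end Fermat.Agent.Kummer
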