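import Fermat.Agent.Kummer.Defs
import Fermat.Agent.Kummer.CaseI
import Fermat.Agent.Kummer.CaseII
import Fermat.Agent.Kummer.PID
import Fermat.Agent.Kummer.Lemma

/-!
# Fermat's Last Theorem for the exponents 5, 7, 11, 13 (assembly; owner: lead).
-/

set_option autoImplicit false

namespace Fermat.Agent.Kummer

open NumberField

/-- FLT for a prime `p ≥ 5` such that the `p`-th cyclotomic ring of integers is principal and
Kummer's lemma holds. -/
theorem no_solution_of_pid_of_kummer {p : ℕ} [Fact p.Prime] (hp5 : 5 ≤ p)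
    (K : Type) [Field K] [NumberField K] [IsCyclotomicExtension {p} ℚ K]
    (hpid : IsPrincipalIdealRing (𝓞 K)) (hk : KummerProp p K)
    {a b c : ℤ} (ha : a ≠ 0) (hb : b ≠ 0) (hc : c ≠ 0) (hab : IsCoprime a b) :
    a ^ p + b ^ p ≠ c ^ p := by
  intro h
  have hpp : p.Prime := Fact.out
  have hodd : Odd p := hpp.odd_of_ne_two (by omega)
  have h0 : a ^ p + b ^ p + (-c) ^ p = 0 := by
    rw [hodd.neg_pow, h]; ring
  have hpne : p ≠ 0 := hpp.ne_zero
  -- pairwise coprimality
  have hac : IsCoprime a c := by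
    have : IsCoprime a (c ^ p) := by
      rw [← h]
      have h1 : IsCoprime a (b ^ p) := hab.pow_right
      have h2 : IsCoprime a (b ^ p + a ^ (p - 1) * a) := h1.add_mul_right_right _
      have h3 : a ^ (p - 1) * a = a ^ p := by
        rw [← pow_succ, Nat.sub_add_cancel hpp.one_le]
      rw [h3, add_comm] at h2
      exact h2
    exact (IsCoprime.pow_right_iff hpp.pos).mp this
  have hbc : IsCoprime b c := by
    have : IsCoprime b (c ^ p) := by
      rw [← h]
      have h1 : IsCoprime b (a ^ p) := hab.symm.pow_right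
      have h2 : IsCoprime b (a ^ p + b ^ (p - 1) * b) := h1.add_mul_right_right _
      have h3 : b ^ (p - 1) * b = b ^ p := by
        rw [← pow_succ, Nat.sub_add_cancel hpp.one_le]
      rw [h3] at h2
      exact h2
    exact (IsCoprime.pow_right_iff hpp.pos).mp this
  by_cases hdiv : (p : ℤ) ∣ a * b * (-c)
  · have hprime : Prime (p : ℤ) := Nat.prime_iff_prime_int.mp hpp
    rcases hprime.dvd_or_dvd hdiv with h1 | h1
    · rcases hprime.dvd_or_dvd h1 with h2 | h2
      · -- p ∣ a
        refine caseII (by omega) K hpid hk (x := b) (y := -c) (z := a) hbc.neg_right ?_ ha h2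
        linear_combination h0
      · -- p ∣ b
        refine caseII (by omega) K hpid hk (x := a) (y := -c) (z := b) hac.neg_right ?_ hb h2
        linear_combination h0
    · -- p ∣ -c
      exact caseII (by omega) K hpid hk (x := a) (y := b) (z := -c) hab h0 (neg_ne_zero.mpr hc) h1
  · exact caseI hp5 K hpid hab h0 hdiv

/-- FLT for the exponents `5, 7, 11, 13`, for coprime nonzero integers. -/
theorem no_solution {p : ℕ} (hp : p = 5 ∨ p = 7 ∨ p = 11 ∨ p = 13)
    {a b c : ℤ} (ha : a ≠ 0) (hb : b ≠ 0) (hc : c ≠ 0) (hab : IsCoprime a b) :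
    a ^ p + b ^ p ≠ c ^ p := by
  rcases hp with rfl | rfl | rfl | rfl
  · have : Fact (Nat.Prime 5) := ⟨by norm_num⟩
    have : NeZero (5 : ℕ) := ⟨by norm_num⟩
    have : IsCyclotomicExtension {5} ℚ (CyclotomicField 5 ℚ) :=
      CyclotomicField.isCyclotomicExtension 5 ℚ
    exact no_solution_of_pid_of_kummer (by norm_num) (CyclotomicField 5 ℚ)
      (IsCyclotomicExtension.Rat.five_pid _) (kummerProp_five _) ha hb hc hab
  · have : Fact (Nat.Prime 7) := ⟨by norm_num⟩
    have : NeZero (7 : ℕ) := ⟨by norm_num⟩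
    have : IsCyclotomicExtension {7} ℚ (CyclotomicField 7 ℚ) :=
      CyclotomicField.isCyclotomicExtension 7 ℚ
    exact no_solution_of_pid_of_kummer (by norm_num) (CyclotomicField 7 ℚ)
      (pid_seven _) (kummerProp_seven _) ha hb hc hab
  · have : Fact (Nat.Prime 11) := ⟨by norm_num⟩
    have : NeZero (11 : ℕ) := ⟨by norm_num⟩
    have : IsCyclotomicExtension {11} ℚ (CyclotomicField 11 ℚ) :=
      CyclotomicField.isCyclotomicExtension 11 ℚ
    exact no_solution_of_pid_of_kummer (by norm_num) (CyclotomicField 11 ℚ)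
      (pid_eleven _) (kummerProp_eleven _) ha hb hc hab
  · have : Fact (Nat.Prime 13) := ⟨by norm_num⟩
    have : NeZero (13 : ℕ) := ⟨by norm_num⟩
    have : IsCyclotomicExtension {13} ℚ (CyclotomicField 13 ℚ) :=
      CyclotomicField.isCyclotomicExtension 13 ℚ
    exact no_solution_of_pid_of_kummer (by norm_num) (CyclotomicField 13 ℚ)
      (pid_thirteen _) (kummerProp_thirteen _) ha hb hc hab

end Fermat.Agent.Kummer
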