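import Mathlib

/-!
# First case of FLT for the exponents 5, 7, 11, 13 via Sophie Germain's theorem.
Owner: helper16.  Self-contained (only Mathlib), elementary, over `ℤ`.

Sophie Germain: let `p` be an odd prime and `θ` a prime such that
* `a ^ p + b ^ p + c ^ p = 0` in `ZMod θ` forces `a = 0 ∨ b = 0 ∨ c = 0`,
* `p` is not a `p`-th power in `ZMod θ`.
Then `x ^ p + y ^ p + z ^ p = 0` with `x, y` coprime integers implies `p ∣ x * y * z`.
We use `θ = 11, 29, 23, 53` for `p = 5, 7, 11, 13`.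
-/

set_option autoImplicit false

namespace Fermat.Agent.Kummer.SG

open Finset

/-- The cofactor `φ(y, z) = ∑_{i<p} y^i (-z)^(p-1-i)` of `y + z` in `y ^ p + z ^ p` (`p` odd). -/
def phi (p : ℕ) (y z : ℤ) : ℤ := ∑ i ∈ range p, y ^ i * (-z) ^ (p - 1 - i)

lemma add_mul_phi {p : ℕ} (hp : Odd p) (y z : ℤ) : (y + z) * phi p y z = y ^ p + z ^ p := by
  have h := (Commute.all y (-z)).mul_geom_sum₂ p
  rw [hp.neg_pow] at h
  rw [phi]
  linear_combination h

lemma phi_congr (p : ℕ) (y z : ℤ) : (y + z) ∣ phi p y z - (p : ℤ) * y ^ (p - 1) := by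
  have h1 : (p : ℤ) * y ^ (p - 1) = ∑ i ∈ range p, y ^ i * y ^ (p - 1 - i) := by
    rw [← Finset.card_range p, ← nsmul_eq_mul, ← Finset.sum_const, Finset.card_range]
    refine Finset.sum_congr rfl fun i hi => ?_
    rw [← pow_add]
    congr 1
    have := Finset.mem_range.mp hi
    omega
  rw [phi, h1, ← Finset.sum_sub_distrib]
  refine Finset.dvd_sum fun i _ => ?_
  rw [← mul_sub]
  refine Dvd.dvd.mul_left ?_ _
  have h2 : (-z) - y ∣ (-z) ^ (p - 1 - i) - y ^ (p - 1 - i) := sub_dvd_pow_sub_pow _ _ _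
  have h3 : y + z ∣ (-z) - y := ⟨-1, by ring⟩
  exact h3.trans h2

lemma isCoprime_add_phi {p : ℕ} (hp : p.Prime) {y z : ℤ} (hyz : IsCoprime y z)
    (hpyz : ¬ (p : ℤ) ∣ y + z) : IsCoprime (y + z) (phi p y z) := by
  obtain ⟨k, hk⟩ := phi_congr p y z
  have h1 : IsCoprime (y + z) y := by
    have : IsCoprime z y := hyz.symm
    have h := this.add_mul_left_left 1
    simpa [add_comm] using h
  have h2 : IsCoprime (y + z) (p : ℤ) := by
    have hirr : Irreducible (p : ℤ) := (Nat.prime_iff_prime_int.mp hp).irreducible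
    exact (hirr.coprime_iff_not_dvd.mpr hpyz).symm
  have h3 : IsCoprime (y + z) ((p : ℤ) * y ^ (p - 1)) := h2.mul_right h1.pow_right
  have h4 : phi p y z = (p : ℤ) * y ^ (p - 1) + (y + z) * k := by linear_combination hk
  rw [h4]
  exact h3.add_mul_left_right k

/-- The two coprime factors of `y ^ p + z ^ p = (-x) ^ p` are `p`-th powers. -/
lemma exists_pow_eq {p : ℕ} (hp : p.Prime) (hodd : Odd p) {x y z : ℤ} (hyz : IsCoprime y z)
    (h : x ^ p + y ^ p + z ^ p = 0) (hpx : ¬ (p : ℤ) ∣ x) :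
    (∃ a : ℤ, y + z = a ^ p) ∧ ∃ α : ℤ, phi p y z = α ^ p := by
  have hmul : (y + z) * phi p y z = (-x) ^ p := by
    rw [add_mul_phi hodd, hodd.neg_pow]
    linear_combination h
  have hpyz : ¬ (p : ℤ) ∣ y + z := by
    intro hd
    have h1 : (p : ℤ) ∣ (-x) ^ p := by
      rw [← hmul]
      exact hd.mul_right _
    have h2 := (Nat.prime_iff_prime_int.mp hp).dvd_of_dvd_pow h1
    exact hpx ((dvd_neg).mp h2)
  exact Int.eq_pow_of_mul_eq_pow_odd (isCoprime_add_phi hp hyz hpyz) hodd hmul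

lemma cast_phi (θ p : ℕ) (y z : ℤ) :
    ((phi p y z : ℤ) : ZMod θ) = ∑ i ∈ range p, (y : ZMod θ) ^ i * (-(z : ZMod θ)) ^ (p - 1 - i) := by
  simp [phi]

lemma not_dvd_both {θ : ℕ} [hθ : Fact θ.Prime] {u v : ℤ} (huv : IsCoprime u v)
    (hu : (u : ZMod θ) = 0) (hv : (v : ZMod θ) = 0) : False := by
  rw [ZMod.intCast_zmod_eq_zero_iff_dvd] at hu hv
  have h1 : IsUnit (θ : ℤ) := huv.isUnit_of_dvd' hu hv
  have h2 := Int.isUnit_iff_natAbs_eq.mp h1
  have h3 := hθ.out.one_lt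
  simp at h2
  omega

/-- Sophie Germain's argument, asymmetric form: the auxiliary prime `θ` divides `x`. -/
lemma aux {p θ : ℕ} [hθ : Fact θ.Prime] (hp : p.Prime) (hodd : Odd p)
    (h1 : ∀ a b c : ZMod θ, a ^ p + b ^ p + c ^ p = 0 → a = 0 ∨ b = 0 ∨ c = 0)
    (h2 : ∀ a : ZMod θ, a ^ p ≠ (p : ZMod θ))
    {x y z : ℤ} (hxy : IsCoprime x y) (hyz : IsCoprime y z) (hzx : IsCoprime z x)
    (h : x ^ p + y ^ p + z ^ p = 0) (hpx : ¬ (p : ℤ) ∣ x) (hpy : ¬ (p : ℤ) ∣ y)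
    (hpz : ¬ (p : ℤ) ∣ z) (hx : (x : ZMod θ) = 0) : False := by
  obtain ⟨⟨a, ha⟩, ⟨α, hα⟩⟩ := exists_pow_eq hp hodd hyz h hpx
  obtain ⟨⟨b, hb⟩, -⟩ := exists_pow_eq hp hodd hzx (x := y) (by linear_combination h) hpy
  obtain ⟨⟨c, hc⟩, ⟨γ, hγ⟩⟩ := exists_pow_eq hp hodd hxy (x := z) (by linear_combination h) hpz
  have hp1 : p - 1 + 1 = p := Nat.sub_add_cancel hp.one_le
  have heven : Even (p - 1) := by
    rcases hodd with ⟨k, hk⟩
    exact ⟨k, by omega⟩
  -- the relation `b^p + c^p + (-a)^p = 2x ≡ 0`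
  have hrel : (b : ZMod θ) ^ p + (c : ZMod θ) ^ p + (-(a : ZMod θ)) ^ p = 0 := by
    have h0 : b ^ p + c ^ p + (-a) ^ p = 2 * x := by
      rw [hodd.neg_pow, ← ha, ← hb, ← hc]; ring
    have h3 := congrArg (Int.cast : ℤ → ZMod θ) h0
    push_cast at h3
    rw [h3, hx, mul_zero]
  have ha' : ((y : ZMod θ) + z) = (a : ZMod θ) ^ p := by exact_mod_cast congrArg (Int.cast : ℤ → ZMod θ) ha
  have hb' : ((z : ZMod θ) + x) = (b : ZMod θ) ^ p := by exact_mod_cast congrArg (Int.cast : ℤ → ZMod θ) hb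
  have hc' : ((x : ZMod θ) + y) = (c : ZMod θ) ^ p := by exact_mod_cast congrArg (Int.cast : ℤ → ZMod θ) hc
  have hy0 : (y : ZMod θ) ≠ 0 := fun hy => not_dvd_both hxy hx hy
  rcases h1 _ _ _ hrel with hb0 | hc0 | ha0
  · -- θ ∣ b, so θ ∣ z
    rw [hb0, zero_pow hp.ne_zero, hx, add_zero] at hb'
    exact not_dvd_both hzx hb' hx
  · -- θ ∣ c, so θ ∣ y
    rw [hc0, zero_pow hp.ne_zero, hx, zero_add] at hc'
    exact hy0 hc'
  · -- θ ∣ a, so z ≡ -y
    rw [neg_eq_zero] at ha0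
    rw [ha0, zero_pow hp.ne_zero] at ha'
    have hz : -(z : ZMod θ) = y := by linear_combination -ha'
    have hα' : (α : ZMod θ) ^ p = (p : ZMod θ) * (y : ZMod θ) ^ (p - 1) := by
      have h3 := congrArg (Int.cast : ℤ → ZMod θ) hα
      rw [cast_phi] at h3
      push_cast at h3
      rw [← h3]
      have h4 : ∀ i ∈ range p, (y : ZMod θ) ^ i * (-(z : ZMod θ)) ^ (p - 1 - i)
          = (y : ZMod θ) ^ (p - 1) := by
        intro i hi
        rw [hz, ← pow_add]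
        congr 1
        have := Finset.mem_range.mp hi
        omega
      rw [Finset.sum_congr rfl h4, Finset.sum_const, Finset.card_range, nsmul_eq_mul]
    have hγ' : (γ : ZMod θ) ^ p = (y : ZMod θ) ^ (p - 1) := by
      have h3 := congrArg (Int.cast : ℤ → ZMod θ) hγ
      rw [cast_phi] at h3
      push_cast at h3
      rw [← h3]
      rw [Finset.sum_eq_single 0]
      · rw [pow_zero, one_mul, Nat.sub_zero, heven.neg_pow]
      · intro i _ hi
        rw [hx, zero_pow hi, zero_mul]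
      · intro h0
        exact absurd (Finset.mem_range.mpr hp.pos) h0
    have hγ0 : (γ : ZMod θ) ≠ 0 := by
      intro h0
      rw [h0, zero_pow hp.ne_zero] at hγ'
      exact hy0 (pow_eq_zero_iff (Nat.sub_ne_zero_of_lt hp.one_lt) |>.mp hγ'.symm)
    refine h2 ((α : ZMod θ) * (γ : ZMod θ)⁻¹) ?_
    rw [mul_pow, inv_pow, hα', hγ']
    have hy1 : (y : ZMod θ) ^ (p - 1) ≠ 0 := pow_ne_zero _ hy0
    field_simp

/-- **Sophie Germain's theorem.** -/
theorem sophie_germain {p θ : ℕ} [hθ : Fact θ.Prime] (hp : p.Prime) (hodd : Odd p)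
    (h1 : ∀ a b c : ZMod θ, a ^ p + b ^ p + c ^ p = 0 → a = 0 ∨ b = 0 ∨ c = 0)
    (h2 : ∀ a : ZMod θ, a ^ p ≠ (p : ZMod θ))
    {x y z : ℤ} (hxy : IsCoprime x y) (h : x ^ p + y ^ p + z ^ p = 0)
    (hxyz : ¬ (p : ℤ) ∣ x * y * z) : False := by
  have hpx : ¬ (p : ℤ) ∣ x := fun hd => hxyz ((hd.mul_right y).mul_right z)
  have hpy : ¬ (p : ℤ) ∣ y := fun hd => hxyz ((hd.mul_left x).mul_right z)
  have hpz : ¬ (p : ℤ) ∣ z := fun hd => hxyz (hd.mul_left (x * y))
  -- pairwise coprimality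
  have hyz : IsCoprime y z := by
    have h3 : IsCoprime y (z ^ p) := by
      have h4 : z ^ p = (-x) ^ p + y * (-(y ^ (p - 1))) := by
        have : y * y ^ (p - 1) = y ^ p := by
          rw [← pow_succ', Nat.sub_add_cancel hp.one_le]
        rw [hodd.neg_pow]
        linear_combination h + this
      rw [h4]
      exact (hxy.symm.neg_right.pow_right).add_mul_left_right _
    exact (IsCoprime.pow_right_iff hp.pos).mp h3
  have hzx : IsCoprime z x := by
    have h3 : IsCoprime x (z ^ p) := by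
      have h4 : z ^ p = (-y) ^ p + x * (-(x ^ (p - 1))) := by
        have : x * x ^ (p - 1) = x ^ p := by
          rw [← pow_succ', Nat.sub_add_cancel hp.one_le]
        rw [hodd.neg_pow]
        linear_combination h + this
      rw [h4]
      exact (hxy.neg_right.pow_right).add_mul_left_right _
    exact ((IsCoprime.pow_right_iff hp.pos).mp h3).symm
  have hcast : (x : ZMod θ) ^ p + (y : ZMod θ) ^ p + (z : ZMod θ) ^ p = 0 := by
    have h3 := congrArg (Int.cast : ℤ → ZMod θ) h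
    push_cast at h3
    exact h3
  rcases h1 _ _ _ hcast with hx | hy | hz
  · exact aux hp hodd h1 h2 hxy hyz hzx h hpx hpy hpz hx
  · exact aux hp hodd h1 h2 hyz hzx hxy (by linear_combination h) hpy hpz hpx hy
  · exact aux hp hodd h1 h2 hzx hxy hyz (by linear_combination h) hpz hpx hpy hz

/-- Reduction of the first Sophie Germain hypothesis to a finite list of `p`-th powers. -/
lemma h1_of_list {θ p : ℕ} [Fact θ.Prime] (hp : p ≠ 0) (L : List (ZMod θ))
    (hL : ∀ a : ZMod θ, a ^ p ∈ L)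
    (hsum : ∀ s ∈ L, ∀ t ∈ L, ∀ u ∈ L, s + t + u = 0 → s = 0 ∨ t = 0 ∨ u = 0) :
    ∀ a b c : ZMod θ, a ^ p + b ^ p + c ^ p = 0 → a = 0 ∨ b = 0 ∨ c = 0 := by
  intro a b c h
  rcases hsum _ (hL a) _ (hL b) _ (hL c) h with h0 | h0 | h0
  · exact Or.inl ((pow_eq_zero_iff hp).mp h0)
  · exact Or.inr (Or.inl ((pow_eq_zero_iff hp).mp h0))
  · exact Or.inr (Or.inr ((pow_eq_zero_iff hp).mp h0))

lemma cert5_pow : ∀ a : ZMod 11, a ^ 5 ∈ ([0, 1, -1] : List (ZMod 11)) := by decide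
set_option maxRecDepth 100000 in
lemma cert5_sum : ∀ s ∈ ([0, 1, -1] : List (ZMod 11)), ∀ t ∈ ([0, 1, -1] : List (ZMod 11)),
    ∀ u ∈ ([0, 1, -1] : List (ZMod 11)), s + t + u = 0 → s = 0 ∨ t = 0 ∨ u = 0 := by decide
lemma cert5_ne : ∀ a : ZMod 11, a ^ 5 ≠ ((5 : ℕ) : ZMod 11) := by decide

set_option maxRecDepth 100000 in
lemma cert7_pow : ∀ a : ZMod 29, a ^ 7 ∈ ([0, 1, -1, 12, -12] : List (ZMod 29)) := by decide
set_option maxRecDepth 100000 in
lemma cert7_sum : ∀ s ∈ ([0, 1, -1, 12, -12] : List (ZMod 29)),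
    ∀ t ∈ ([0, 1, -1, 12, -12] : List (ZMod 29)),
    ∀ u ∈ ([0, 1, -1, 12, -12] : List (ZMod 29)), s + t + u = 0 → s = 0 ∨ t = 0 ∨ u = 0 := by
  decide
lemma cert7_ne : ∀ a : ZMod 29, a ^ 7 ≠ ((7 : ℕ) : ZMod 29) := by decide

lemma cert11_pow : ∀ a : ZMod 23, a ^ 11 ∈ ([0, 1, -1] : List (ZMod 23)) := by decide
set_option maxRecDepth 100000 in
lemma cert11_sum : ∀ s ∈ ([0, 1, -1] : List (ZMod 23)), ∀ t ∈ ([0, 1, -1] : List (ZMod 23)),
    ∀ u ∈ ([0, 1, -1] : List (ZMod 23)), s + t + u = 0 → s = 0 ∨ t = 0 ∨ u = 0 := by decide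
lemma cert11_ne : ∀ a : ZMod 23, a ^ 11 ≠ ((11 : ℕ) : ZMod 23) := by decide

set_option maxRecDepth 100000 in
lemma cert13_pow : ∀ a : ZMod 53, a ^ 13 ∈ ([0, 1, -1, 23, -23] : List (ZMod 53)) := by decide
set_option maxRecDepth 100000 in
lemma cert13_sum : ∀ s ∈ ([0, 1, -1, 23, -23] : List (ZMod 53)),
    ∀ t ∈ ([0, 1, -1, 23, -23] : List (ZMod 53)),
    ∀ u ∈ ([0, 1, -1, 23, -23] : List (ZMod 53)), s + t + u = 0 → s = 0 ∨ t = 0 ∨ u = 0 := by
  decide
set_option maxRecDepth 100000 in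
lemma cert13_ne : ∀ a : ZMod 53, a ^ 13 ≠ ((13 : ℕ) : ZMod 53) := by decide

/-- **First case of FLT for `p = 5, 7, 11, 13`** (Sophie Germain, auxiliary primes
`11, 29, 23, 53`): no solution of `x ^ p + y ^ p + z ^ p = 0` in integers with `x, y` coprime
and `p ∤ x * y * z`. -/
theorem caseI_sg {p : ℕ} (hp : p = 5 ∨ p = 7 ∨ p = 11 ∨ p = 13) {x y z : ℤ}
    (hxy : IsCoprime x y) (h : x ^ p + y ^ p + z ^ p = 0) (hxyz : ¬ (p : ℤ) ∣ x * y * z) :
    False := by
  rcases hp with rfl | rfl | rfl | rfl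
  · have : Fact (Nat.Prime 11) := ⟨by norm_num⟩
    exact sophie_germain (θ := 11) (by norm_num) (by decide)
      (h1_of_list (by norm_num) _ cert5_pow cert5_sum) cert5_ne hxy h hxyz
  · have : Fact (Nat.Prime 29) := ⟨by norm_num⟩
    exact sophie_germain (θ := 29) (by norm_num) (by decide)
      (h1_of_list (by norm_num) _ cert7_pow cert7_sum) cert7_ne hxy h hxyz
  · have : Fact (Nat.Prime 23) := ⟨by norm_num⟩
    exact sophie_germain (θ := 23) (by norm_num) (by decide)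
      (h1_of_list (by norm_num) _ cert11_pow cert11_sum) cert11_ne hxy h hxyz
  · have : Fact (Nat.Prime 53) := ⟨by norm_num⟩
    exact sophie_germain (θ := 53) (by norm_num) (by decide)
      (h1_of_list (by norm_num) _ cert13_pow cert13_sum) cert13_ne hxy h hxyz

/-- Same as `caseI_sg` without the coprimality hypothesis (divide by `gcd x y`). -/
theorem caseI_sg' {p : ℕ} (hp : p = 5 ∨ p = 7 ∨ p = 11 ∨ p = 13) {x y z : ℤ}
    (h : x ^ p + y ^ p + z ^ p = 0) (hxyz : ¬ (p : ℤ) ∣ x * y * z) : False := by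
  have hp0 : p ≠ 0 := by rcases hp with rfl | rfl | rfl | rfl <;> norm_num
  have hx0 : x ≠ 0 := by
    rintro rfl
    exact hxyz (by simp)
  have hg : 0 < Int.gcd x y := Int.gcd_pos_of_ne_zero_left y hx0
  obtain ⟨x', y', hco, hx, hy⟩ := Int.exists_gcd_one hg
  set g : ℤ := (Int.gcd x y : ℤ) with hgdef
  have hg0 : g ≠ 0 := by
    rw [hgdef]
    exact_mod_cast hg.ne'
  have hgz : g ∣ z := by
    rw [← Int.pow_dvd_pow_iff hp0]
    have h1 : z ^ p = -(x ^ p + y ^ p) := by linear_combination h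
    rw [h1, dvd_neg]
    refine dvd_add ?_ ?_
    · rw [Int.pow_dvd_pow_iff hp0]
      exact ⟨x', by rw [mul_comm]; exact hx⟩
    · rw [Int.pow_dvd_pow_iff hp0]
      exact ⟨y', by rw [mul_comm]; exact hy⟩
  obtain ⟨z', hz⟩ := hgz
  have hco' : IsCoprime x' y' := Int.isCoprime_iff_gcd_eq_one.mpr hco
  have h' : x' ^ p + y' ^ p + z' ^ p = 0 := by
    have h1 : g ^ p * (x' ^ p + y' ^ p + z' ^ p) = 0 := by
      rw [← h, hx, hy, hz]
      ring
    rcases mul_eq_zero.mp h1 with h2 | h2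
    · exact absurd (pow_eq_zero_iff hp0 |>.mp h2) hg0
    · exact h2
  refine caseI_sg hp hco' h' fun hd => hxyz ?_
  have h3 : x * y * z = (x' * y' * z') * g ^ 3 := by
    rw [hx, hy, hz]
    ring
  rw [h3]
  exact hd.mul_right _

end Fermat.Agent.Kummer.SG
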